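import Mathlib
import Fermat.Prelude.Def_AlgebraicCurve_DivisorClassGroup

set_option autoImplicit false

open AlgebraicCurve IsDedekindDomain IsLocalRing

namespace Fermat.Agent.S24

variable {K F : Type*} [Field K] [Field F] [Algebra K F] (v : Place K F)

/-- `ord` in terms of the valuation: `n ≤ ord f ↔ val f ≤ exp (-n)`. -/
theorem le_ord_iff {f : F} (hf : f ≠ 0) (n : ℤ) :
    n ≤ v.ord f ↔ v.adicValuation f ≤ WithZero.exp (-n) := by
  have h0 := v.adicValuation_ne_zero hf
  rw [Place.ord, le_neg, ← WithZero.log_le_iff_le_exp h0]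

theorem ord_nonneg_iff {f : F} (hf : f ≠ 0) :
    0 ≤ v.ord f ↔ f ∈ v.toValuationSubring := by
  rw [le_ord_iff v hf, neg_zero, WithZero.exp_zero]
  constructor
  · intro h
    obtain ⟨a, ha⟩ := IsDiscreteValuationRing.exists_lift_of_le_one
      (A := v.toValuationSubring) (K := F) h
    rw [← ha]
    exact a.2
  · intro h
    have := v.heightOneSpectrum.valuation_le_one (K := F) (⟨f, h⟩ : v.toValuationSubring)
    exact this

theorem ord_nonneg_of_mem {f : F} (h : f ∈ v.toValuationSubring) : 0 ≤ v.ord f := by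
  rcases eq_or_ne f 0 with rfl | hf
  · simp
  · exact (ord_nonneg_iff v hf).mpr h

/-- for `x` in the valuation ring, `n ≤ ord x ↔ x ∈ m ^ n`. -/
theorem natCast_le_ord_iff (x : v.toValuationSubring) (hx : x ≠ 0) (n : ℕ) :
    (n : ℤ) ≤ v.ord (x : F) ↔ x ∈ maximalIdeal v.toValuationSubring ^ n := by
  have hxF : (x : F) ≠ 0 := by simpa using hx
  rw [le_ord_iff v hxF, v.adicValuation_coe,
    HeightOneSpectrum.intValuation_le_pow_iff_mem, Place.heightOneSpectrum_asIdeal]

theorem ord_pos_iff (x : v.toValuationSubring) (hx : x ≠ 0) :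
    0 < v.ord (x : F) ↔ x ∈ maximalIdeal v.toValuationSubring := by
  have := natCast_le_ord_iff v x hx 1
  rw [pow_one] at this
  rw [← this]
  norm_cast

theorem ord_algebraMap (a : K) : v.ord (algebraMap K F a) = 0 := by
  rcases eq_or_ne a 0 with rfl | ha
  · simp
  · have hu : IsUnit (algebraMap K v.toValuationSubring a) := (IsUnit.mk0 a ha).map _
    have := v.ord_coe_unit hu.unit
    simpa using this

/-- If `ord f > 0` then `f` lies in the valuation ring. -/
theorem mem_of_ord_pos {f : F} (h : 0 < v.ord f) : f ∈ v.toValuationSubring := by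
  have hf : f ≠ 0 := by
    rintro rfl
    simp at h
  exact (ord_nonneg_iff v hf).mp h.le

end Fermat.Agent.S24
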