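import Mathlib
import Fermat.Prelude.Def_AlgebraicCurve_DivisorClassGroup
import Fermat.Agent.S24.PlacesZD.Basic

set_option autoImplicit false

open AlgebraicCurve IsDedekindDomain IsLocalRing

namespace Fermat.Agent.S24

variable {K F : Type*} [Field K] [Field F] [Algebra K F]
variable {S : Type*} [CommRing S] [IsDedekindDomain S] [Algebra S F] [IsFractionRing S F]

theorem algebraMap_mem_valuationSubringAtPrime (P : HeightOneSpectrum S) (s : S) :
    algebraMap S F s ∈ P.valuationSubringAtPrime F := by
  rw [HeightOneSpectrum.valuationSubringAtPrime_eq_valuationSubring,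
    Valuation.mem_valuationSubring_iff]
  exact P.valuation_le_one s

theorem valuationSubringAtPrime_ne_top (P : HeightOneSpectrum S) :
    P.valuationSubringAtPrime F ≠ ⊤ := by
  rw [HeightOneSpectrum.valuationSubringAtPrime_eq_valuationSubring]
  simp only [ne_eq, Valuation.valuationSubring_eq_top_iff, not_not]
  infer_instance

/-- The place of `F` attached to a nonzero prime of a Dedekind domain `S` with fraction
field `F` containing the constants. -/
noncomputable def placeOfPrime (hK : ∀ a : K, algebraMap K F a ∈ (algebraMap S F).range)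
    (P : HeightOneSpectrum S) : Place K F where
  toValuationSubring := P.valuationSubringAtPrime F
  algebraMap_mem' a := by
    obtain ⟨s, hs⟩ := hK a
    rw [← hs]
    exact algebraMap_mem_valuationSubringAtPrime P s
  ne_top' := valuationSubringAtPrime_ne_top P
  isPrincipalIdealRing' := by
    have : IsDiscreteValuationRing (P.valuationSubringAtPrime F) :=
      IsLocalization.AtPrime.isDiscreteValuationRing_of_dedekind_domain S P.ne_bot
        (P.valuationSubringAtPrime F)
    infer_instance

end Fermat.Agent.S24

namespace Fermat.Agent.S24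

variable {K F : Type*} [Field K] [Field F] [Algebra K F]
variable {S : Type*} [CommRing S] [IsDedekindDomain S] [Algebra S F] [IsFractionRing S F]

/-- Localisation fact: an element of `S` lies in `m_P ^ n` iff it lies in `P ^ n`. -/
theorem algebraMap_mem_maximalIdeal_pow_iff (P : HeightOneSpectrum S) (s : S) (n : ℕ) :
    algebraMap S (P.valuationSubringAtPrime F) s ∈
      maximalIdeal (P.valuationSubringAtPrime F) ^ n ↔ s ∈ P.asIdeal ^ n := by
  rcases Nat.eq_zero_or_pos n with rfl | hn
  · simp
  have hmax : P.asIdeal.IsMaximal := P.isMaximal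
  have hprim : (P.asIdeal ^ n).IsPrimary := by
    apply Ideal.isPrimary_of_isMaximal_radical
    rw [Ideal.radical_pow _ hn.ne', P.isPrime.radical]
    exact hmax
  have hdisj : Disjoint (P.asIdeal.primeCompl : Set S) (P.asIdeal ^ n : Ideal S) := by
    rw [Set.disjoint_left]
    intro x hx hx'
    exact hx (Ideal.pow_le_self hn.ne' hx')
  have h1 := IsLocalization.under_map_of_isPrimary_disjoint P.asIdeal.primeCompl
    (P.valuationSubringAtPrime F) hprim hdisj
  rw [← IsLocalization.AtPrime.map_eq_maximalIdeal P.asIdeal (P.valuationSubringAtPrime F),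
    ← Ideal.map_pow]
  constructor
  · intro h
    rw [← h1]
    exact h
  · intro h
    exact Ideal.mem_map_of_mem _ h

theorem placeOfPrime_toValuationSubring
    (hK : ∀ a : K, algebraMap K F a ∈ (algebraMap S F).range) (P : HeightOneSpectrum S) :
    (placeOfPrime hK P).toValuationSubring = P.valuationSubringAtPrime F := rfl

theorem natCast_le_ord_placeOfPrime_iff
    (hK : ∀ a : K, algebraMap K F a ∈ (algebraMap S F).range) (P : HeightOneSpectrum S)
    (s : S) (hs : s ≠ 0) (n : ℕ) :
    (n : ℤ) ≤ (placeOfPrime hK P).ord (algebraMap S F s) ↔ s ∈ P.asIdeal ^ n := by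
  have hinj : Function.Injective (algebraMap S F) := IsFractionRing.injective S F
  have hx : (algebraMap S (P.valuationSubringAtPrime F) s : P.valuationSubringAtPrime F) ≠ 0 := by
    intro h
    apply hs
    apply hinj
    have h2 : ((algebraMap S (P.valuationSubringAtPrime F) s : P.valuationSubringAtPrime F) : F)
        = algebraMap S F s := rfl
    rw [← h2, h, map_zero]
    rfl
  have := natCast_le_ord_iff (placeOfPrime hK P)
    (algebraMap S (P.valuationSubringAtPrime F) s : P.valuationSubringAtPrime F) hx n
  rw [← algebraMap_mem_maximalIdeal_pow_iff (F := F) P s n]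
  exact this

end Fermat.Agent.S24

namespace Fermat.Agent.S24

variable {K F : Type*} [Field K] [Field F] [Algebra K F]
variable {S : Type*} [CommRing S] [IsDedekindDomain S] [Algebra S F] [IsFractionRing S F]

theorem placeOfPrime_injective (hK : ∀ a : K, algebraMap K F a ∈ (algebraMap S F).range) :
    Function.Injective (placeOfPrime (K := K) (F := F) (S := S) hK) := by
  intro P Q h
  have h1 : P.valuationSubringAtPrime F = Q.valuationSubringAtPrime F :=
    congrArg Place.toValuationSubring h
  rw [HeightOneSpectrum.valuationSubringAtPrime_eq_valuationSubring,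
    HeightOneSpectrum.valuationSubringAtPrime_eq_valuationSubring,
    ← Valuation.isEquiv_iff_valuationSubring] at h1
  exact HeightOneSpectrum.eq_of_valuation_isEquiv_valuation h1

/-- the inverse (in `F`) of a unit of a valuation subring lies in the subring -/
theorem inv_mem_of_isUnit (A : ValuationSubring F) (a : A) (ha : IsUnit a) :
    ((a : F))⁻¹ ∈ A := by
  obtain ⟨u, rfl⟩ := ha
  have h : ((u : A) : F) * ((u⁻¹ : Aˣ) : A) = 1 := by
    have h0 : (u : A) * ((u⁻¹ : Aˣ) : A) = 1 := Units.mul_inv u
    have := congrArg (fun z : A => (z : F)) h0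
    simpa only [MulMemClass.coe_mul, OneMemClass.coe_one] using this
  have h2 : (((u : A) : F))⁻¹ = (((u⁻¹ : Aˣ) : A) : F) :=
    inv_eq_of_mul_eq_one_right h
  rw [h2]
  exact ((u⁻¹ : Aˣ) : A).2

/-- Every place whose valuation ring contains `S` comes from a prime of `S`. -/
theorem exists_placeOfPrime_eq (hK : ∀ a : K, algebraMap K F a ∈ (algebraMap S F).range)
    (v : Place K F) (hS : ∀ s : S, algebraMap S F s ∈ v.toValuationSubring) :
    ∃ P : HeightOneSpectrum S, placeOfPrime hK P = v := by
  let φ : S →+* v.toValuationSubring := (algebraMap S F).codRestrict v.toValuationSubring.toSubring hS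
  have hφ : ∀ s, ((φ s : v.toValuationSubring) : F) = algebraMap S F s := fun s => rfl
  let P₀ : Ideal S := Ideal.comap φ (maximalIdeal v.toValuationSubring)
  have hprime : P₀.IsPrime := Ideal.comap_isPrime φ _
  have hunit : ∀ s : S, s ∉ P₀ → IsUnit (φ s) := by
    intro s hs
    rw [← notMem_maximalIdeal]
    exact hs
  have hne : P₀ ≠ ⊥ := by
    intro hbot
    apply v.ne_top'
    rw [eq_top_iff]
    intro x _
    obtain ⟨a, b, hb, rfl⟩ := IsFractionRing.div_surjective S x
    have hb0 : b ≠ 0 := nonZeroDivisors.ne_zero hb
    have hbP : b ∉ P₀ := by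
      rw [hbot]
      simpa using hb0
    have := inv_mem_of_isUnit v.toValuationSubring (φ b) (hunit b hbP)
    rw [div_eq_mul_inv]
    exact v.toValuationSubring.mul_mem _ _ (hS a) this
  let P : HeightOneSpectrum S := ⟨P₀, hprime, hne⟩
  refine ⟨P, ?_⟩
  apply Place.ext
  change P.valuationSubringAtPrime F = v.toValuationSubring
  apply ValuationSubring.eq_of_le_of_ne_top _ _ v.ne_top'
  intro x hx
  rw [HeightOneSpectrum.valuationSubringAtPrime_eq_valuationSubring,
    Valuation.mem_valuationSubring_iff] at hx
  obtain ⟨n, d, hnd⟩ := P.exists_primeCompl_mul_eq_of_integer x hx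
  have hd : (d : S) ∉ P₀ := d.2
  have hdinv := inv_mem_of_isUnit v.toValuationSubring (φ d) (hunit d hd)
  have hd0 : algebraMap S F (d : S) ≠ 0 := by
    intro h0
    have : (d : S) = 0 := IsFractionRing.injective S F (by rw [h0, map_zero])
    apply hd
    rw [this]
    exact Ideal.zero_mem _
  have hx' : x = algebraMap S F n * (algebraMap S F (d : S))⁻¹ := by
    rw [← hnd]
    field_simp
  rw [hx']
  exact v.toValuationSubring.mul_mem _ _ (hS n) hdinv

end Fermat.Agent.S24
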